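/-
GATE-F / GF-D2-F1 (helper45), file 1: general cusp expansions.

* `hasCuspExp_of_periodic` : a holomorphic `h`-periodic function on `ℍ` bounded at `i∞` has the cusp
  expansion `qExpansion h F` (Mathlib) in the sense of T28 (`HasCuspExp`);
* `constantCoeff_qExpansion_of_isZeroAtImInfty` : zero constant term for functions vanishing at `i∞`;
* `Conv.theta`, `mul_deriv_evalDisc` : termwise differentiation of a power series converging on the
  unit disc: `q · G'(q) = (θ p)(q)`;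
* `HasCuspExp.normalizedDeriv` : `D F = (2πi)⁻¹ F'` has the expansion `θ L` (period `1`).
-/
import Mathlib
import Fermat.Agent.S28.MeroSubst
import Fermat.Agent.GL.Thick.ThetaL

set_option autoImplicit false
set_option maxHeartbeats 400000
set_option linter.unusedSectionVars false
set_option linter.style.haveILetI false

noncomputable section

namespace Fermat.Agent.GF.D2.F1

open Complex PowerSeries Metric Filter Topology ModularCurve Derivative
open UpperHalfPlane hiding I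
open Fermat.Agent.S28 Fermat.Agent.GL.Thick
open scoped Real Manifold MatrixGroups

local notation "𝕢" => Function.Periodic.qParam

/-! ### Cusp expansions from Mathlib's `qExpansion` -/

theorem conv_qExpansion {h : ℝ} (hh : 0 < h) {F : ℍ → ℂ}
    (hper : Function.Periodic (F ∘ ofComplex) h) (hol : MDiff F) (hbd : IsBoundedAtImInfty F) :
    Conv (qExpansion h F) := by
  intro q hq
  have := (hasSum_qExpansion_of_norm_lt hh hper hol hbd hq).summable
  simpa [smul_eq_mul] using this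

/-- a holomorphic `h`-periodic function bounded at `i∞` has a cusp expansion (T28 sense). -/
theorem hasCuspExp_of_periodic {h : ℝ} (hh : 0 < h) {F : ℍ → ℂ}
    (hper : Function.Periodic (F ∘ ofComplex) h) (hol : MDiff F) (hbd : IsBoundedAtImInfty F) :
    HasCuspExp h F (HahnSeries.ofPowerSeries ℤ ℂ (qExpansion h F)) := by
  refine ⟨0, qExpansion h F, conv_qExpansion hh hper hol hbd, (lsOf_zero_left _).symm, fun τ => ?_⟩
  rw [pow_zero, mul_one]
  have := hasSum_qExpansion hh hper hol hbd τ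
  simp only [smul_eq_mul] at this
  exact this.tsum_eq.symm

theorem constantCoeff_qExpansion_of_isZeroAtImInfty {h : ℝ} (hh : 0 < h) {F : ℍ → ℂ}
    (hper : Function.Periodic (F ∘ ofComplex) h) (hol : MDiff F) (hz : IsZeroAtImInfty F) :
    PowerSeries.constantCoeff (qExpansion h F) = 0 := by
  have hbd : IsBoundedAtImInfty F := hz.boundedAtFilter
  rw [← PowerSeries.coeff_zero_eq_constantCoeff_apply,
    qExpansion_coeff_zero hh (analyticAt_cuspFunction_zero hh hper hol hbd) hper]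
  exact hz.valueAtInfty_eq_zero

/-! ### Termwise differentiation on the unit disc -/

/-- `q · G'(q) = (θ p)(q)` for `G = evalDisc p`. -/
theorem conv_theta_and_eval {p : PowerSeries ℂ} (hp : Conv p) :
    Conv (Fermat.Agent.S16.RAM.theta ℂ p) ∧
      ∀ q : ℂ, ‖q‖ < 1 →
        evalDisc (Fermat.Agent.S16.RAM.theta ℂ p) q = q * deriv (evalDisc p) q := by
  set G := evalDisc p with hG
  have hGd : DifferentiableOn ℂ G (ball 0 1) := hp.differentiableOn
  have hG'd : DifferentiableOn ℂ (deriv G) (ball 0 1) := hGd.deriv isOpen_ball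
  have hP' : Conv (taylorPS (deriv G)) := conv_taylorPS hG'd
  have key : Fermat.Agent.S16.RAM.theta ℂ p = X * taylorPS (deriv G) := by
    ext n
    rw [Fermat.Agent.S16.RAM.coeff_theta]
    rcases n with _ | n
    · simp
    · rw [PowerSeries.coeff_succ_X_mul]
      have h1 : p = taylorPS G := hp.eq_taylorPS
      conv_lhs => rw [h1]
      simp only [taylorPS, coeff_mk]
      rw [iteratedDeriv_succ', Nat.factorial_succ]
      have hn : ((n + 1 : ℕ) : ℂ) ≠ 0 := Nat.cast_ne_zero.mpr (Nat.succ_ne_zero n)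
      have hf : ((n.factorial : ℕ) : ℂ) ≠ 0 := Nat.cast_ne_zero.mpr (Nat.factorial_ne_zero n)
      push_cast
      field_simp
  refine ⟨key ▸ conv_X.mul hP', fun q hq => ?_⟩
  rw [key, evalDisc_mul conv_X hP' hq, evalDisc_taylorPS hG'd hq]
  congr 1
  have := evalDisc_X_pow 1 q
  simpa using this

theorem Conv.theta {p : PowerSeries ℂ} (hp : Conv p) : Conv (Fermat.Agent.S16.RAM.theta ℂ p) :=
  (conv_theta_and_eval hp).1

theorem evalDisc_theta {p : PowerSeries ℂ} (hp : Conv p) {q : ℂ} (hq : ‖q‖ < 1) :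
    evalDisc (Fermat.Agent.S16.RAM.theta ℂ p) q = q * deriv (evalDisc p) q :=
  (conv_theta_and_eval hp).2 q hq

/-! ### `θ` of `lsOf` -/

theorem coeff_lsOf (M : ℕ) (p : PowerSeries ℂ) (n : ℤ) :
    (lsOf M p).coeff n = (HahnSeries.ofPowerSeries ℤ ℂ p).coeff (n + M) := by
  have := HahnSeries.coeff_single_mul_add (x := HahnSeries.ofPowerSeries ℤ ℂ p) (r := (1 : ℂ))
    (a := n + M) (b := -(M : ℤ))
  rw [one_mul] at this
  rw [← this, lsOf]
  congr 1
  ring

theorem coeff_ofPowerSeries_int (p : PowerSeries ℂ) (n : ℤ) :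
    (HahnSeries.ofPowerSeries ℤ ℂ p).coeff n = if 0 ≤ n then PowerSeries.coeff n.toNat p else 0 := by
  split_ifs with hn
  · lift n to ℕ using hn
    rw [HahnSeries.ofPowerSeries_apply_coeff, Int.toNat_natCast]
  · rw [HahnSeries.ofPowerSeries_apply, HahnSeries.embDomain_notin_range]
    rintro ⟨m, hm⟩
    apply hn
    rw [← hm]
    simp

theorem thetaL_lsOf (M : ℕ) (p : PowerSeries ℂ) :
    thetaL ℂ (lsOf M p) = lsOf M (Fermat.Agent.S16.RAM.theta ℂ p - (M : ℂ) • p) := by
  ext n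
  rw [coeff_thetaL, coeff_lsOf, coeff_lsOf, coeff_ofPowerSeries_int, coeff_ofPowerSeries_int]
  split_ifs with hn
  · rw [map_sub, Fermat.Agent.S16.RAM.coeff_theta, PowerSeries.coeff_smul, smul_eq_mul]
    have h1 : (((n + M).toNat : ℕ) : ℂ) = (n : ℂ) + M := by
      have : (((n + M).toNat : ℕ) : ℤ) = n + M := Int.toNat_of_nonneg hn
      exact_mod_cast this
    rw [h1]
    ring
  · rw [mul_zero]

/-! ### The normalised derivative of a cusp expansion -/

theorem hasDerivAt_qParam_one (z : ℂ) :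
    HasDerivAt (fun w : ℂ => 𝕢 1 w) (2 * π * I * 𝕢 1 z) z := by
  unfold Function.Periodic.qParam
  have h1 : HasDerivAt (fun w : ℂ => 2 * (π : ℂ) * I * w / ((1 : ℝ) : ℂ)) (2 * π * I) z := by
    have := ((hasDerivAt_id z).const_mul (2 * (π : ℂ) * I)).div_const (((1 : ℝ) : ℂ))
    simpa using this
  have := h1.cexp
  simpa [mul_comm] using this

/-- **`D F = (2πi)⁻¹ F'` has the expansion `θ L`** (period `1`). -/
theorem HasCuspExp.normalizedDeriv {F : ℍ → ℂ} {L : LaurentSeries ℂ} (hF : HasCuspExp 1 F L) :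
    HasCuspExp 1 (normalizedDerivOfComplex F) (thetaL ℂ L) := by
  have hmd : MDiff F := hF.mdifferentiable one_pos
  obtain ⟨M, p, hp, rfl, hFe⟩ := hF
  refine ⟨M, Fermat.Agent.S16.RAM.theta ℂ p - (M : ℂ) • p, (Conv.theta hp).sub (Conv.smul hp _),
    thetaL_lsOf M p, fun τ => ?_⟩
  have hq1 : ‖𝕢 1 (τ : ℂ)‖ < 1 := Function.Periodic.norm_qParam_lt_one one_pos τ.im_pos
  rw [evalDisc_sub (Conv.theta hp) (Conv.smul hp _) hq1, evalDisc_smul, evalDisc_theta hp hq1, ← hFe τ]
  -- the two functions of the complex variable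
  have hopen : upperHalfPlaneSet ∈ 𝓝 (τ : ℂ) := isOpen_upperHalfPlaneSet.mem_nhds τ.im_pos
  have hFd : DifferentiableAt ℂ (F ∘ ofComplex) (τ : ℂ) :=
    ((UpperHalfPlane.mdifferentiable_iff.mp hmd) (τ : ℂ) τ.im_pos).differentiableAt hopen
  have hGd : DifferentiableAt ℂ (evalDisc p) (𝕢 1 (τ : ℂ)) :=
    ((Conv.differentiableOn hp) (𝕢 1 (τ : ℂ)) (by simpa using hq1)).differentiableAt
      (isOpen_ball.mem_nhds (by simpa using hq1))
  have hu : HasDerivAt (fun z : ℂ => (F ∘ ofComplex) z * 𝕢 1 z ^ M)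
      (deriv (F ∘ ofComplex) (τ : ℂ) * 𝕢 1 (τ : ℂ) ^ M +
        (F ∘ ofComplex) (τ : ℂ) * ((M : ℂ) * 𝕢 1 (τ : ℂ) ^ (M - 1) * (2 * π * I * 𝕢 1 (τ : ℂ))))
      (τ : ℂ) :=
    hFd.hasDerivAt.mul ((hasDerivAt_qParam_one (τ : ℂ)).pow M)
  have hv : HasDerivAt (fun z : ℂ => evalDisc p (𝕢 1 z))
      (deriv (evalDisc p) (𝕢 1 (τ : ℂ)) * (2 * π * I * 𝕢 1 (τ : ℂ))) (τ : ℂ) :=
    hGd.hasDerivAt.comp (τ : ℂ) (hasDerivAt_qParam_one (τ : ℂ))
  have hev : (fun z : ℂ => (F ∘ ofComplex) z * 𝕢 1 z ^ M) =ᶠ[𝓝 (τ : ℂ)]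
      fun z : ℂ => evalDisc p (𝕢 1 z) := by
    filter_upwards [hopen] with z hz
    have := hFe ⟨z, hz⟩
    simp only [Function.comp_apply, ofComplex_apply_of_im_pos hz]
    exact this
  have hderiv := (hu.congr_of_eventuallyEq hev.symm).unique hv
  have hFτ : (F ∘ ofComplex) (τ : ℂ) = F τ := by simp
  rw [hFτ] at hderiv
  have hpow : (M : ℂ) * 𝕢 1 (τ : ℂ) ^ (M - 1) * (2 * π * I * 𝕢 1 (τ : ℂ)) =
      2 * π * I * M * 𝕢 1 (τ : ℂ) ^ M := by
    rcases M with _ | M
    · simp
    · simp only [Nat.add_sub_cancel, pow_succ]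
      ring
  rw [hpow] at hderiv
  have h2pi : (2 * π * I : ℂ) ≠ 0 := two_pi_I_ne_zero
  simp only [normalizedDerivOfComplex]
  have : deriv (F ∘ ofComplex) (τ : ℂ) * 𝕢 1 (τ : ℂ) ^ M =
      (2 * π * I) * (𝕢 1 (τ : ℂ) * deriv (evalDisc p) (𝕢 1 (τ : ℂ)) -
        (M : ℂ) * (F τ * 𝕢 1 (τ : ℂ) ^ M)) := by
    linear_combination hderiv
  rw [mul_assoc, this, ← mul_assoc, inv_mul_cancel₀ h2pi, one_mul]

end Fermat.Agent.GF.D2.F1
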