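/-
GATE-F / GF-D2-F1 (helper45), file 2: the modular function `H_f = f / D j` attached to a weight two
cusp form `f` on `Γ₀(N)` (`D = (2πi)⁻¹ d/dτ`), as an element of `FC N = ℂ(X₀(N))`.

* `fHol f`, `DjHol`, `E4Hol`, `E6Hol` : the holomorphic functions;
* `isWt_of_modularForm` : modular forms give `IsWt` (GJ/J2/TwistedEisField);
* `exists_HfC` : `∃ h : FC N, realizeC N h * D j = f` in `Mer`;
* `compSL_DjHol` : `D j` has weight `2` for `SL₂(ℤ)`;
* cusp expansions of `f ∣ g` (period `N`) and of `D j` (`θ j(q)`).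
-/
import Mathlib
import Fermat.Agent.GF.D2.F1.CuspExpGen
import Fermat.Agent.GJ.J2.TwistedEisField
import Fermat.Agent.LevelOne_helper29.Ramanujan
import Fermat.Agent.LevelOne_helper29.JOrders
import Fermat.Agent.S21_helper65.Existence
import Fermat.Agent.S28.UnitOrders
import Fermat.Agent.S28.CuspExpansion

set_option autoImplicit false
set_option maxHeartbeats 400000
set_option linter.unusedSectionVars false
set_option linter.style.haveILetI false

noncomputable section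

namespace Fermat.Agent.GF.D2.F1

open Complex Filter Topology ModularCurve Derivative ModularForm CongruenceSubgroup EisensteinSeries
open UpperHalfPlane hiding I
open Fermat.Agent.S28 Fermat.Agent.GL.Thick Fermat.Agent.S24_helper82
open Fermat.Agent.GJ.TwEis Fermat.Agent.GJ.Dict Fermat.Agent.GJ.Dict.FieldGen
open Fermat.Agent.LevelOne_helper29 (jInv D_jInv D_jInv_mul_discriminant mdifferentiable_jInv)
open scoped Real Manifold MatrixGroups ModularForm

local notation "𝕢" => Function.Periodic.qParam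
local notation "Δ" => ModularForm.discriminant

/-! ### `IsWt` for modular forms -/

/-- a modular form for an arithmetic group containing `Γ₀(N)` gives an `IsWt N k`. -/
theorem isWt_of_modularFormClass {N : ℕ} {k : ℤ} {Γ : Subgroup (GL (Fin 2) ℝ)} [Γ.IsArithmetic]
    [Γ.HasDetOne] {F : Type*} [FunLike F ℍ ℂ] [ModularFormClass F Γ k] (f : F)
    (hΓ : ∀ γ ∈ Gamma0 N, ((γ : SL(2, ℤ)) : GL (Fin 2) ℝ) ∈ Γ) :
    IsWt N k (⟨f, ModularFormClass.holo f⟩ : Hol) where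
  law γ hγ := by
    apply Subtype.ext
    funext z
    show f (γ • z) = denom (γ : GL (Fin 2) ℝ) z ^ k * f z
    exact SlashInvariantForm.slash_action_eqn'' f (hΓ γ hγ) z
  bdd g := ModularFormClass.bdd_at_infty_slash f g

variable {N : ℕ} [NeZero N]

/-- the cusp form as a holomorphic function -/
def fHol (f : CuspForm (Gamma0 N) 2) : Hol := ⟨f, CuspFormClass.holo f⟩

@[simp] theorem coe_fHol (f : CuspForm (Gamma0 N) 2) : (fHol f : ℍ → ℂ) = f := rfl

theorem isWt_fHol (f : CuspForm (Gamma0 N) 2) : IsWt N 2 (fHol f) :=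
  isWt_of_modularFormClass (Γ := ((Gamma0 N : Subgroup SL(2, ℤ)) : Subgroup (GL (Fin 2) ℝ))) f
    (fun γ hγ => ⟨γ, hγ, rfl⟩)

/-- `E₄` as a holomorphic function -/
def E4Hol : Hol := ⟨E₄, ModularFormClass.holo E₄⟩

/-- `E₆` as a holomorphic function -/
def E6Hol : Hol := ⟨E₆, ModularFormClass.holo E₆⟩

theorem isWt_E4Hol : IsWt N 4 E4Hol :=
  isWt_of_modularFormClass (Γ := (𝒮ℒ : Subgroup (GL (Fin 2) ℝ))) E₄ (fun γ _ => ⟨γ, rfl⟩)

theorem isWt_E6Hol : IsWt N 6 E6Hol :=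
  isWt_of_modularFormClass (Γ := (𝒮ℒ : Subgroup (GL (Fin 2) ℝ))) E₆ (fun γ _ => ⟨γ, rfl⟩)

theorem isWt_DeltaHol : IsWt N 12 DeltaHol :=
  isWt_of_modularFormClass (Γ := (𝒮ℒ : Subgroup (GL (Fin 2) ℝ))) CuspForm.discriminant
    (fun γ _ => ⟨γ, rfl⟩)

/-! ### `D j` -/

/-- `D j = (2πi)⁻¹ j'` as a holomorphic function -/
def DjHol : Hol := ⟨D jInv, normalizedDerivOfComplex_mdifferentiable mdifferentiable_jInv⟩

@[simp] theorem coe_DjHol : (DjHol : ℍ → ℂ) = D jInv := rfl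

/-- `Δ · D j = −E₄² E₆` in `Hol`. -/
theorem DjHol_mul_DeltaHol : DjHol * DeltaHol = -(E4Hol ^ 2 * E6Hol) := by
  apply Subtype.ext
  funext z
  exact D_jInv_mul_discriminant z

theorem DeltaHol_mul_DeltaInvHol : DeltaHol * DeltaInvHol = 1 := by
  apply Subtype.ext
  funext z
  show Δ z * (Δ z)⁻¹ = 1
  exact mul_inv_cancel₀ (discriminant_ne_zero z)

theorem DeltaHol_ne_zero : DeltaHol ≠ 0 := fun h => by
  have := DeltaHol_mul_DeltaInvHol
  rw [h, zero_mul] at this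
  exact zero_ne_one this

theorem E4Hol_ne_zero : E4Hol ≠ 0 := fun h => by
  have h1 : Tendsto (fun τ : ℍ => E₄ τ) atImInfty (𝓝 1) :=
    Fermat.Agent.LevelOne_helper29.tendsto_E4_atImInfty
  have h2 : (fun τ : ℍ => E₄ τ) = fun _ => (0 : ℂ) := by
    funext τ
    exact congrFun (congrArg (fun f : Hol => (f : ℍ → ℂ)) h) τ
  rw [h2] at h1
  exact zero_ne_one (tendsto_nhds_unique tendsto_const_nhds h1)

theorem E6Hol_ne_zero : E6Hol ≠ 0 := fun h => by
  have h1 : Tendsto (fun τ : ℍ => E₆ τ) atImInfty (𝓝 1) :=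
    Fermat.Agent.LevelOne_helper29.tendsto_E6_atImInfty
  have h2 : (fun τ : ℍ => E₆ τ) = fun _ => (0 : ℂ) := by
    funext τ
    exact congrFun (congrArg (fun f : Hol => (f : ℍ → ℂ)) h) τ
  rw [h2] at h1
  exact zero_ne_one (tendsto_nhds_unique tendsto_const_nhds h1)

theorem DjHol_ne_zero : DjHol ≠ 0 := fun h => by
  have h1 := DjHol_mul_DeltaHol
  rw [h, zero_mul] at h1
  have h2 : E4Hol ^ 2 * E6Hol = 0 := by
    have := congrArg Neg.neg h1
    simpa using this.symm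
  exact mul_ne_zero (pow_ne_zero 2 E4Hol_ne_zero) E6Hol_ne_zero h2

/-- `D j` has weight `2` for the full modular group. -/
theorem compSL_DjHol (g : SL(2, ℤ)) : compSL g DjHol = denHol g 2 * DjHol := by
  apply Subtype.ext
  funext z
  show D jInv (g • z) = denom (g : GL (Fin 2) ℝ) z ^ (2 : ℤ) * D jInv z
  rw [D_jInv, D_jInv, Fermat.Agent.LevelOne_helper29.E4_smul,
    Fermat.Agent.LevelOne_helper29.discriminant_smul,
    Fermat.Agent.LevelOne_helper29.E_smul (k := 6) (by norm_num)]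
  have hd : denom (g : GL (Fin 2) ℝ) z ≠ 0 := denom_ne_zero _ z
  have hΔ : Δ z ≠ 0 := discriminant_ne_zero z
  have e4 : denom (g : GL (Fin 2) ℝ) z ^ (4 : ℤ) = denom (g : GL (Fin 2) ℝ) z ^ 4 := by
    norm_cast
  have e6 : denom (g : GL (Fin 2) ℝ) z ^ ((6 : ℕ) : ℤ) = denom (g : GL (Fin 2) ℝ) z ^ 6 := by
    norm_cast
  have e12 : denom (g : GL (Fin 2) ℝ) z ^ (12 : ℤ) = denom (g : GL (Fin 2) ℝ) z ^ 12 := by
    norm_cast
  have e2 : denom (g : GL (Fin 2) ℝ) z ^ (2 : ℤ) = denom (g : GL (Fin 2) ℝ) z ^ 2 := by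
    norm_cast
  rw [e4, e6, e12, e2]
  field_simp

/-! ### The element `H_f` of `ℂ(X₀(N))` -/

/-- **the modular function `H_f = f / D j`** lies in the function field of `X₀(N)` over `ℂ`. -/
theorem exists_HfC (f : CuspForm (Gamma0 N) 2) :
    ∃ h : FC N, realizeC N h * algebraMap Hol Mer DjHol = algebraMap Hol Mer (fHol f) := by
  have hA : IsWt N ((14 : ℕ) : ℤ) (fHol f * DeltaHol) :=
    ((isWt_fHol f).mul isWt_DeltaHol).congr_weight (by norm_num)
  have hB : IsWt N ((14 : ℕ) : ℤ) (-(E4Hol ^ 2 * E6Hol)) := by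
    have h1 : IsWt N ((14 : ℕ) : ℤ) (E4Hol ^ 2 * E6Hol) :=
      (((isWt_E4Hol (N := N)).pow 2).mul isWt_E6Hol).congr_weight (by norm_num)
    refine ⟨fun γ hγ => ?_, fun g => ?_⟩
    · rw [map_neg, h1.law γ hγ]
      exact (mul_neg (denHol γ ((14 : ℕ) : ℤ)) (E4Hol ^ 2 * E6Hol)).symm
    · have : (((-(E4Hol ^ 2 * E6Hol) : Hol) : ℍ → ℂ) ∣[((14 : ℕ) : ℤ)] g) =
          -(((E4Hol ^ 2 * E6Hol : Hol) : ℍ → ℂ) ∣[((14 : ℕ) : ℤ)] g) := by
        have e : ((-(E4Hol ^ 2 * E6Hol) : Hol) : ℍ → ℂ) = -((E4Hol ^ 2 * E6Hol : Hol) : ℍ → ℂ) := rfl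
        rw [e, SlashAction.neg_slash]
      rw [this]
      exact (h1.bdd g).neg_left
  have hB0 : -(E4Hol ^ 2 * E6Hol) ≠ 0 :=
    neg_ne_zero.mpr (mul_ne_zero (pow_ne_zero 2 E4Hol_ne_zero) E6Hol_ne_zero)
  obtain ⟨h, hh⟩ := exists_realizeC_eq_div_of_isWt hA hB hB0
  refine ⟨h, ?_⟩
  have hB' : algebraMap Hol Mer (-(E4Hol ^ 2 * E6Hol)) ≠ 0 := algebraMap_ne_zero hB0
  have hΔ' : algebraMap Hol Mer DeltaHol ≠ 0 := algebraMap_ne_zero DeltaHol_ne_zero
  rw [hh, ← DjHol_mul_DeltaHol, map_mul, map_mul]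
  have hDj' : algebraMap Hol Mer DjHol ≠ 0 := algebraMap_ne_zero DjHol_ne_zero
  field_simp

/-! ### Cusp expansions -/

theorem natCast_pos_real (N : ℕ) [NeZero N] : (0 : ℝ) < (N : ℝ) :=
  Nat.cast_pos.mpr (NeZero.pos N)

/-- the `t = exp(2πiτ/N)`-expansion of `f ∣ g` -/
def slashExp (f : CuspForm (Gamma0 N) 2) (g : SL(2, ℤ)) : PowerSeries ℂ :=
  qExpansion (N : ℝ) ((⇑f) ∣[(2 : ℤ)] g)

theorem hasCuspExp_slash (f : CuspForm (Gamma0 N) 2) (g : SL(2, ℤ)) :
    HasCuspExp (N : ℝ) ((⇑f) ∣[(2 : ℤ)] g) (HahnSeries.ofPowerSeries ℤ ℂ (slashExp f g)) :=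
  hasCuspExp_of_periodic (natCast_pos_real N) (Fermat.Agent.S21_helper65.periodic_slash f g)
    (Fermat.Agent.S21_helper65.mdiff_slash f g)
    (CuspFormClass.zero_at_infty_slash f g).boundedAtFilter

theorem constantCoeff_slashExp (f : CuspForm (Gamma0 N) 2) (g : SL(2, ℤ)) :
    PowerSeries.constantCoeff (slashExp f g) = 0 :=
  constantCoeff_qExpansion_of_isZeroAtImInfty (natCast_pos_real N)
    (Fermat.Agent.S21_helper65.periodic_slash f g) (Fermat.Agent.S21_helper65.mdiff_slash f g)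
    (CuspFormClass.zero_at_infty_slash f g)

theorem isCE_slashHol (f : CuspForm (Gamma0 N) 2) (g : SL(2, ℤ)) :
    IsCE (N : ℝ) (slashHol (fHol f) 2 g : ℍ → ℂ) := (hasCuspExp_slash f g).isCE

theorem cuspExp_slashHol (f : CuspForm (Gamma0 N) 2) (g : SL(2, ℤ)) :
    cuspExp (N : ℝ) (slashHol (fHol f) 2 g : ℍ → ℂ) =
      HahnSeries.ofPowerSeries ℤ ℂ (slashExp f g) :=
  (hasCuspExp_slash f g).cuspExp_eq (natCast_pos_real N)

/-- the order of the expansion of `f ∣ g` is positive (cusp form) -/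
theorem one_le_order_slashExp (f : CuspForm (Gamma0 N) 2) (g : SL(2, ℤ))
    (h0 : slashExp f g ≠ 0) : 1 ≤ (HahnSeries.ofPowerSeries ℤ ℂ (slashExp f g)).order := by
  have h1 : (HahnSeries.ofPowerSeries ℤ ℂ (slashExp f g)) ≠ 0 := by
    intro h
    exact h0 (HahnSeries.ofPowerSeries_injective (by rw [h, map_zero]))
  by_contra hlt
  have hlt' : (HahnSeries.ofPowerSeries ℤ ℂ (slashExp f g)).order < 1 := not_le.mp hlt
  have hc := mt HahnSeries.coeff_order_eq_zero.mp h1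
  rw [coeff_ofPowerSeries_int] at hc
  split_ifs at hc with hn
  · have h0' : (HahnSeries.ofPowerSeries ℤ ℂ (slashExp f g)).order = 0 := by omega
    rw [h0', Int.toNat_zero, PowerSeries.coeff_zero_eq_constantCoeff_apply,
      constantCoeff_slashExp] at hc
    exact hc rfl
  · exact hc rfl

/-- `D j` has the expansion `θ j(q)` -/
theorem hasCuspExp_Dj : HasCuspExp 1 (DjHol : ℍ → ℂ) (thetaL ℂ (jqModC ℂ)) :=
  HasCuspExp.normalizedDeriv hasCuspExp_jFun

theorem isCE_DjHol_one : IsCE 1 (DjHol : ℍ → ℂ) := hasCuspExp_Dj.isCE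

theorem cuspExp_DjHol_one : cuspExp 1 (DjHol : ℍ → ℂ) = thetaL ℂ (jqModC ℂ) :=
  hasCuspExp_Dj.cuspExp_eq one_pos

theorem isCE_DjHol (N : ℕ) [NeZero N] : IsCE (N : ℝ) (DjHol : ℍ → ℂ) := isCE_DjHol_one.period_nat N

theorem cuspExp_DjHol (N : ℕ) [NeZero N] :
    cuspExp (N : ℝ) (DjHol : ℍ → ℂ) = qExpand ℂ N (thetaL ℂ (jqModC ℂ)) := by
  rw [cuspExp_period_nat isCE_DjHol_one N, cuspExp_DjHol_one]

/-- in characteristic zero `θ` preserves nonzero orders -/
theorem order_thetaL {L : LaurentSeries ℂ} (hL : L ≠ 0) (ho : L.order ≠ 0) :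
    (thetaL ℂ L).order = L.order := by
  have hc : (thetaL ℂ L).coeff L.order ≠ 0 := by
    rw [coeff_thetaL]
    exact mul_ne_zero (by exact_mod_cast ho) (mt HahnSeries.coeff_order_eq_zero.mp hL)
  have h0 : thetaL ℂ L ≠ 0 := fun h => hc (by rw [h, HahnSeries.coeff_zero])
  apply le_antisymm
  · exact HahnSeries.order_le_of_coeff_ne_zero hc
  · by_contra hlt
    have hlt' : (thetaL ℂ L).order < L.order := not_le.mp hlt
    have h1 := mt HahnSeries.coeff_order_eq_zero.mp h0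
    rw [coeff_thetaL, HahnSeries.coeff_eq_zero_of_lt_order hlt', mul_zero] at h1
    exact h1 rfl

theorem order_thetaL_jqModC : (thetaL ℂ (jqModC ℂ)).order = -1 := by
  have h1 : (jqModC ℂ).order = -1 := Fermat.Agent.S28.order_jqModC ℂ
  have h0 : jqModC ℂ ≠ 0 := by
    intro h
    rw [h, HahnSeries.order_zero] at h1
    norm_num at h1
  rw [order_thetaL h0 (by rw [h1]; norm_num), h1]

theorem thetaL_jqModC_ne_zero : thetaL ℂ (jqModC ℂ) ≠ 0 := by
  intro h
  have := order_thetaL_jqModC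
  rw [h, HahnSeries.order_zero] at this
  norm_num at this

theorem order_cuspExp_DjHol (N : ℕ) [NeZero N] :
    (cuspExp (N : ℝ) (DjHol : ℍ → ℂ)).order = -(N : ℤ) := by
  rw [cuspExp_DjHol, Fermat.Agent.S28.CuspExp.order_qExpand, order_thetaL_jqModC]
  ring

end Fermat.Agent.GF.D2.F1
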