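/-
GATE-F / GF-D2-F1 (helper45), file 3: orders of `H_f = f / D j` at the places of `ℂ(X₀(N))`.

For `h : FC N` with `realizeC N h * D j = f` (`f` a weight two cusp form on `Γ₀(N)`), `h ≠ 0`, and
every place `Q` of `FC N`:
* `ord_add_ord_jC_sub_ge` : `0 < Q.ord (j - c) → 1 ≤ Q.ord h + Q.ord (j - c)`   (points of `ℍ`);
* `ord_add_ord_jC_ge`     : `Q.ord j < 0 → 1 ≤ Q.ord h + Q.ord j`               (cusps).
-/
import Mathlib
import Fermat.Agent.GF.D2.F1.Form
import Fermat.Agent.GJ.J2.Dict.InteriorAsmC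
import Fermat.Agent.GJ.J2.Dict.CuspAnC

set_option autoImplicit false
set_option maxHeartbeats 400000
set_option linter.unusedSectionVars false
set_option linter.style.haveILetI false

noncomputable section

namespace Fermat.Agent.GF.D2.F1

open Complex Filter Topology ModularCurve Derivative ModularForm CongruenceSubgroup AlgebraicCurve
open UpperHalfPlane hiding I
open Fermat.Agent.S24 Fermat.Agent.S28 Fermat.Agent.GL.Thick Fermat.Agent.S24_helper82
open Fermat.Agent.GJ.TwEis Fermat.Agent.GJ.Dict Fermat.Agent.GJ.Dict.FieldGen Fermat.Agent.GJ.Dict.Cusp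
open Fermat.Agent.LevelOne_helper29 (jInv mdifferentiable_jInv)
open scoped Real Manifold MatrixGroups ModularForm

/-! ### The order of `D j` at a point of `ℍ` -/

/-- `ord_τ (D j) + 1 = ord_τ (j - j(τ))` -/
theorem ordAt_DjHol_add_one (τ : ℍ) :
    ordAt τ (DjHol : ℍ → ℂ) + 1 = ordAt τ (fun z : ℍ => jInv z - jInv τ) := by
  have hj : AnalyticAt ℂ (jInv ∘ ofComplex) (τ : ℂ) :=
    Fermat.Agent.LevelOne_helper29.analyticAt_comp_ofComplex mdifferentiable_jInv τ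
  have h1 := hj.analyticOrderAt_deriv_add_one
  have h2pi : (2 * π * I : ℂ) ≠ 0 := two_pi_I_ne_zero
  have hopen : upperHalfPlaneSet ∈ 𝓝 (τ : ℂ) := isOpen_upperHalfPlaneSet.mem_nhds τ.im_pos
  -- `D j ∘ ofComplex = (2πi)⁻¹ • deriv (j ∘ ofComplex)` near `τ`
  have hev : ((DjHol : ℍ → ℂ) ∘ ofComplex) =ᶠ[𝓝 (τ : ℂ)]
      fun w => (fun _ : ℂ => (2 * π * I : ℂ)⁻¹) w * deriv (jInv ∘ ofComplex) w := by
    filter_upwards [hopen] with w hw
    simp only [Function.comp_apply, coe_DjHol, normalizedDerivOfComplex,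
      ofComplex_apply_of_im_pos hw]
  have hc : AnalyticAt ℂ (fun _ : ℂ => (2 * π * I : ℂ)⁻¹) (τ : ℂ) := analyticAt_const
  have hd : AnalyticAt ℂ (deriv (jInv ∘ ofComplex)) (τ : ℂ) := hj.deriv
  have h3 : analyticOrderAt ((DjHol : ℍ → ℂ) ∘ ofComplex) (τ : ℂ) =
      analyticOrderAt (deriv (jInv ∘ ofComplex)) (τ : ℂ) := by
    rw [analyticOrderAt_congr hev]
    have := analyticOrderAt_mul hc hd
    rw [show (fun w => (fun _ : ℂ => (2 * π * I : ℂ)⁻¹) w * deriv (jInv ∘ ofComplex) w) =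
      (fun _ : ℂ => (2 * π * I : ℂ)⁻¹) * deriv (jInv ∘ ofComplex) from rfl, this]
    have h0 : analyticOrderAt (fun _ : ℂ => (2 * π * I : ℂ)⁻¹) (τ : ℂ) = 0 := by
      rw [hc.analyticOrderAt_eq_zero]
      exact inv_ne_zero h2pi
    rw [h0, zero_add]
  show analyticOrderAt ((DjHol : ℍ → ℂ) ∘ ofComplex) (τ : ℂ) + 1 =
    analyticOrderAt ((fun z : ℍ => jInv z - jInv τ) ∘ ofComplex) (τ : ℂ)
  rw [h3, h1]
  congr 1
  funext w
  simp [Function.comp_apply]

variable {N : ℕ} [NeZero N]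

theorem fHol_ne_zero_of (f : CuspForm (Gamma0 N) 2) {h : FC N}
    (hh : realizeC N h * algebraMap Hol Mer DjHol = algebraMap Hol Mer (fHol f)) (h0 : h ≠ 0) :
    fHol f ≠ 0 := by
  intro hf
  rw [hf, map_zero] at hh
  rcases mul_eq_zero.mp hh with h1 | h1
  · exact h0 ((map_eq_zero (realizeC N)).mp h1)
  · exact algebraMap_ne_zero DjHol_ne_zero h1

/-! ### Points of the upper half plane -/

/-- **interior places**: `1 ≤ ord_Q (H_f) + ord_Q (j - c)` whenever `Q` is a zero of `j - c`. -/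
theorem ord_add_ord_jC_sub_ge (f : CuspForm (Gamma0 N) 2) {h : FC N}
    (hh : realizeC N h * algebraMap Hol Mer DjHol = algebraMap Hol Mer (fHol f)) (h0 : h ≠ 0)
    (Q : Place ℂ (FC N)) (c : ℂ) (hc : 0 < Q.ord (jC N - algebraMap ℂ (FC N) c)) :
    1 ≤ Q.ord h + Q.ord (jC N - algebraMap ℂ (FC N) c) := by
  have hf0 := fHol_ne_zero_of f hh h0
  have hx0 : jC N - algebraMap ℂ (FC N) c ≠ 0 := (realizationC N).sub_const_ne_zero c
  have hj0 : jC N ≠ 0 := Fermat.Agent.GJ.Dict.Cusp.jC_ne_zero N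
  -- `j` has no pole at `Q`
  have hP : ¬ Q.ord (jC N) < 0 := by
    have h1 : jC N - algebraMap ℂ (FC N) c ∈ Q.toValuationSubring :=
      (PlaceB.ord_nonneg_iff Q hx0).mp hc.le
    have h2 : algebraMap ℂ (FC N) c ∈ Q.toValuationSubring := Q.algebraMap_mem' c
    have h3 : jC N ∈ Q.toValuationSubring := by
      have := Q.toValuationSubring.add_mem _ _ h1 h2
      rwa [sub_add_cancel] at this
    exact not_lt.mpr ((PlaceB.ord_nonneg_iff Q hj0).mpr h3)
  obtain ⟨τ, rfl⟩ := exists_placeAt_eq N Q hP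
  have he := eAt_pos N τ
  -- `c = j(τ)`
  have hR : realizeC N (jC N - algebraMap ℂ (FC N) c) =
      algebraMap Hol Mer ((realizationC N).jSub c) := (realizationC N).R_sub_const c
  have hjs0 : (realizationC N).jSub c ≠ 0 := (realizationC N).jSub_ne_zero c
  have hord1 : ((ordNat τ ((realizationC N).jSub c) : ℕ) : ℤ) =
      eAt N τ * (placeAt N τ).ord (jC N - algebraMap ℂ (FC N) c) := by
    rw [← ordM_realizeC N τ hx0, hR, ordM_algebraMap τ hjs0]
  have hpos : 0 < ordNat τ ((realizationC N).jSub c) := by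
    have : (0 : ℤ) < ((ordNat τ ((realizationC N).jSub c) : ℕ) : ℤ) := by
      rw [hord1]
      exact mul_pos he hc
    exact_mod_cast this
  have hcτ : jInv τ = c := by
    by_contra hne
    have h1 : ((realizationC N).jSub c : ℍ → ℂ) τ ≠ 0 := by
      rw [(realizationC N).jSub_apply]
      exact sub_ne_zero.mpr hne
    exact hpos.ne' ((ordNat_eq_zero_iff hjs0 τ).mpr h1)
  subst hcτ
  -- `ord_τ (j - j τ) = ord_τ (D j) + 1`
  have hD : ordNat τ ((realizationC N).jSub (jInv τ)) = ordNat τ DjHol + 1 := by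
    have h1 := ordAt_DjHol_add_one τ
    have h2 : ((realizationC N).jSub (jInv τ) : ℍ → ℂ) = fun z : ℍ => jInv z - jInv τ :=
      funext fun z => (realizationC N).jSub_apply _ z
    rw [← h2, ← coe_ordNat hjs0 τ, ← coe_ordNat DjHol_ne_zero τ] at h1
    exact_mod_cast h1.symm
  -- the relation `H_f * D j = f`
  have hRh : realizeC N h ≠ 0 := (map_ne_zero (realizeC N)).mpr h0
  have hDj : algebraMap Hol Mer DjHol ≠ 0 := algebraMap_ne_zero DjHol_ne_zero
  have hrel := congrArg (ordM τ) hh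
  rw [ordM_mul τ hRh hDj, ordM_realizeC N τ h0, ordM_algebraMap τ DjHol_ne_zero,
    ordM_algebraMap τ hf0] at hrel
  rw [hD] at hord1
  push_cast at hord1
  have hkey : eAt N τ * ((placeAt N τ).ord h +
      (placeAt N τ).ord (jC N - algebraMap ℂ (FC N) (jInv τ))) =
      (ordNat τ (fHol f) : ℤ) + 1 := by
    rw [mul_add, ← hord1]
    linarith
  have hnn : (0 : ℤ) ≤ (ordNat τ (fHol f) : ℤ) := Int.natCast_nonneg _
  by_contra hlt
  have hle : (placeAt N τ).ord h +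
      (placeAt N τ).ord (jC N - algebraMap ℂ (FC N) (jInv τ)) ≤ 0 := by omega
  have := mul_nonpos_of_nonneg_of_nonpos he.le hle
  omega

/-! ### Cusps -/

/-- the translate of `H_f` by `g`: `(H_f ∘ g⁻¹) * D j = f ∣ g⁻¹`. -/
theorem SigC_mul_DjHol (f : CuspForm (Gamma0 N) 2) {h : FC N}
    (hh : realizeC N h * algebraMap Hol Mer DjHol = algebraMap Hol Mer (fHol f)) (g : SL(2, ℤ)) :
    SigC N g h * algebraMap Hol Mer DjHol = algebraMap Hol Mer (slashHol (fHol f) 2 g⁻¹) := by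
  have h1 := congrArg (compM g⁻¹) hh
  rw [map_mul, compM_algebraMap, compM_algebraMap, compSL_DjHol,
    compSL_eq_denHol_mul_slashHol (fHol f) 2 g⁻¹, map_mul, map_mul] at h1
  have hden : algebraMap Hol Mer (denHol g⁻¹ 2) ≠ 0 := algebraMap_ne_zero (denHol_ne_zero _ _)
  rw [SigC_apply]
  apply mul_left_cancel₀ hden
  rw [← h1]
  ring

/-- **cusp places**: `1 ≤ ord_Q (H_f) + ord_Q (j)` whenever `Q` is a pole of `j`. -/
theorem ord_add_ord_jC_ge (f : CuspForm (Gamma0 N) 2) {h : FC N}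
    (hh : realizeC N h * algebraMap Hol Mer DjHol = algebraMap Hol Mer (fHol f)) (h0 : h ≠ 0)
    (Q : Place ℂ (FC N)) (hQ : Q.ord (jC N) < 0) :
    1 ≤ Q.ord h + Q.ord (jC N) := by
  have hf0 := fHol_ne_zero_of f hh h0
  obtain ⟨q, rfl⟩ := exists_eq_cuspPlaceC N Q hQ
  set g : SL(2, ℤ) := Quotient.out q with hg
  have hgq : ((g : SL(2, ℤ)) : I0 N) = q := QuotientGroup.out_eq' q
  have key := SigC_mul_DjHol f hh g
  have hA : IsCE (N : ℝ) (slashHol (fHol f) 2 g⁻¹ : ℍ → ℂ) := isCE_slashHol f g⁻¹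
  have hB : IsCE (N : ℝ) (DjHol : ℍ → ℂ) := isCE_DjHol N
  have hA0 : slashHol (fHol f) 2 g⁻¹ ≠ 0 := slashHol_ne_zero hf0 2 g⁻¹
  have hLA : cuspExp (N : ℝ) (slashHol (fHol f) 2 g⁻¹ : ℍ → ℂ) ≠ 0 := cuspExp_hol_ne_zero hA0 hA
  have hLB : cuspExp (N : ℝ) (DjHol : ℍ → ℂ) ≠ 0 := cuspExp_hol_ne_zero DjHol_ne_zero hB
  have hL : HasMerExp N (SigC N g h)
      (cuspExp (N : ℝ) (slashHol (fHol f) 2 g⁻¹ : ℍ → ℂ) / cuspExp (N : ℝ) (DjHol : ℍ → ℂ)) :=
    ⟨slashHol (fHol f) 2 g⁻¹, DjHol, DjHol_ne_zero, hA, hB, by rw [mul_comm]; exact key,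
      mul_div_cancel₀ _ hLB⟩
  have ho := order_of_hasMerExp N g h0 hL
  rw [hgq] at ho
  have hm := cuspMultC_pos N q
  -- the order of the quotient
  have hdiv : (cuspExp (N : ℝ) (slashHol (fHol f) 2 g⁻¹ : ℍ → ℂ) /
      cuspExp (N : ℝ) (DjHol : ℍ → ℂ)).order =
      (cuspExp (N : ℝ) (slashHol (fHol f) 2 g⁻¹ : ℍ → ℂ)).order + (N : ℤ) := by
    have hq0 : cuspExp (N : ℝ) (slashHol (fHol f) 2 g⁻¹ : ℍ → ℂ) /
        cuspExp (N : ℝ) (DjHol : ℍ → ℂ) ≠ 0 := div_ne_zero hLA hLB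
    have h1 := HahnSeries.order_mul hq0 hLB
    rw [div_mul_cancel₀ _ hLB, order_cuspExp_DjHol] at h1
    omega
  -- the order of the expansion of `f ∣ g⁻¹`
  have hsl : cuspExp (N : ℝ) (slashHol (fHol f) 2 g⁻¹ : ℍ → ℂ) =
      HahnSeries.ofPowerSeries ℤ ℂ (slashExp f g⁻¹) := cuspExp_slashHol f g⁻¹
  have hsl0 : slashExp f g⁻¹ ≠ 0 := by
    intro h0'
    rw [hsl, h0', map_zero] at hLA
    exact hLA rfl
  have h1le := one_le_order_slashExp f g⁻¹ hsl0
  rw [← hsl] at h1le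
  -- the order of `j`
  have hj0 : jC N ≠ 0 := Fermat.Agent.GJ.Dict.Cusp.jC_ne_zero N
  have hj := order_cuspSigmaC N q hj0
  rw [cuspSigmaC_jC, Fermat.Agent.S28.CuspExp.order_qExpand, Fermat.Agent.S28.order_jqModC] at hj
  rw [hdiv] at ho
  have hkey : cuspMultC N q * ((cuspPlaceC N q).ord h + (cuspPlaceC N q).ord (jC N)) =
      (cuspExp (N : ℝ) (slashHol (fHol f) 2 g⁻¹ : ℍ → ℂ)).order := by
    rw [mul_add, ← ho, ← hj]
    ring
  by_contra hlt
  have hle : (cuspPlaceC N q).ord h + (cuspPlaceC N q).ord (jC N) ≤ 0 := by omega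
  have := mul_nonpos_of_nonneg_of_nonpos hm.le hle
  omega

end Fermat.Agent.GF.D2.F1
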