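/-
GATE-F / GF-D2-F1 (helper45), file 4: the `q`-expansion of `H_f = f / D j`.

* `hasMerExp_realizeC` : every `h : FC N` is the `q`-expansion (period `1`) of its realisation;
* `hasCuspExp_cuspForm` : a cusp form of level `Γ₀(N)` has the expansion `qExpansion 1 f`;
* `coe_mul_thetaL_of_realizeC` : `realizeC N h * D j = f  ⟹  h(q) * θ j(q) = Σ a_n(f) q^n`.
-/
import Mathlib
import Fermat.Agent.GF.D2.F1.OrdC

set_option autoImplicit false
set_option maxHeartbeats 400000
set_option linter.unusedSectionVars false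
set_option linter.style.haveILetI false

noncomputable section

namespace Fermat.Agent.GF.D2.F1

open Complex Filter Topology ModularCurve Derivative ModularForm CongruenceSubgroup AlgebraicCurve
open UpperHalfPlane hiding I
open Fermat.Agent.S24 Fermat.Agent.S28 Fermat.Agent.GL.Thick Fermat.Agent.S24_helper82
open Fermat.Agent.S24_helper62
open Fermat.Agent.GJ.TwEis Fermat.Agent.GJ.Dict Fermat.Agent.GJ.Dict.Cusp
open scoped Real Manifold MatrixGroups ModularForm

variable {N : ℕ} [NeZero N]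

/-! ### Elements of `FC N` are the `q`-expansions of their realisations -/

theorem coe_aeval_genC (P : MvPolynomial (DivIdx N) ℂ) :
    ((MvPolynomial.aeval (Fermat.Agent.GJ.Dict.genC N) P : FC N) : LaurentSeries ℂ) =
      MvPolynomial.aeval (jFam ℂ N) P := by
  have h := MvPolynomial.comp_aeval_apply (f := Fermat.Agent.GJ.Dict.genC N) (FCfield N).val P
  have h2 : (fun i => (FCfield N).val (Fermat.Agent.GJ.Dict.genC N i)) = jFam ℂ N := funext fun d => Fermat.Agent.GJ.Dict.coe_genC N d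
  rw [h2] at h
  exact h

theorem hasMerExp_realizeC_of_mem_RNC {a : FC N} (ha : a ∈ Fermat.Agent.GJ.Dict.RNC N) :
    HasMerExp 1 (realizeC N a) (a : LaurentSeries ℂ) := by
  obtain ⟨P, rfl⟩ := (Fermat.Agent.GJ.Dict.mem_RNC_iff N).mp ha
  have hce : IsCE ((1 : ℕ) : ℝ) ((MvPolynomial.aeval (genHol N) P : Hol) : ℍ → ℂ) := by
    rw [coe_aeval_genHol, Nat.cast_one]
    exact isCE_polyFn N P
  have h := HasMerExp.of_hol (N := 1) (MvPolynomial.aeval (genHol N) P) hce
  rw [realizeC_aeval_genC, coe_aeval_genC]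
  have e : cuspExp ((1 : ℕ) : ℝ) ((MvPolynomial.aeval (genHol N) P : Hol) : ℍ → ℂ) =
      MvPolynomial.aeval (jFam ℂ N) P := by
    rw [coe_aeval_genHol, Nat.cast_one]
    exact Fermat.Agent.GJ.Dict.cuspExp_polyFn N P
  rwa [e] at h

/-- **every element of `ℂ(X₀(N))` is the `q`-expansion of its realisation** -/
theorem hasMerExp_realizeC (h : FC N) : HasMerExp 1 (realizeC N h) (h : LaurentSeries ℂ) := by
  have hmem : h ∈ IntermediateField.adjoin ℂ (Set.range (Fermat.Agent.GJ.Dict.genC N)) := by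
    rw [Fermat.Agent.GJ.Dict.fieldGenC]
    exact IntermediateField.mem_top
  obtain ⟨r, hr, s, hs, rfl⟩ := IntermediateField.mem_adjoin_iff_div.mp hmem
  have e1 : realizeC N (r / s) = realizeC N r / realizeC N s := map_div₀ (realizeC N) r s
  have e2 : ((r / s : FC N) : LaurentSeries ℂ) = (r : LaurentSeries ℂ) / (s : LaurentSeries ℂ) :=
    map_div₀ (FCfield N).val r s
  rw [e1, e2]
  exact (hasMerExp_realizeC_of_mem_RNC hr).div (hasMerExp_realizeC_of_mem_RNC hs)

/-! ### The expansion of a cusp form -/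

theorem hasCuspExp_cuspForm (f : CuspForm (Gamma0 N) 2) :
    HasCuspExp 1 (⇑f) (HahnSeries.ofPowerSeries ℤ ℂ (qExpansion 1 f)) :=
  hasCuspExp_of_periodic one_pos
    (SlashInvariantFormClass.periodic_comp_ofComplex f
      (CongruenceSubgroup.one_mem_strictPeriods_Gamma0 N))
    (CuspFormClass.holo f) (ModularFormClass.bdd_at_infty f)

theorem hasMerExp_fHol (f : CuspForm (Gamma0 N) 2) :
    HasMerExp 1 (algebraMap Hol Mer (fHol f)) (HahnSeries.ofPowerSeries ℤ ℂ (qExpansion 1 f)) := by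
  have h1 : IsCE ((1 : ℕ) : ℝ) ((fHol f : Hol) : ℍ → ℂ) := by
    rw [Nat.cast_one]
    exact (hasCuspExp_cuspForm f).isCE
  have h := HasMerExp.of_hol (N := 1) (fHol f) h1
  have e : cuspExp ((1 : ℕ) : ℝ) ((fHol f : Hol) : ℍ → ℂ) =
      HahnSeries.ofPowerSeries ℤ ℂ (qExpansion 1 f) := by
    rw [Nat.cast_one]
    exact (hasCuspExp_cuspForm f).cuspExp_eq one_pos
  rwa [e] at h

theorem hasMerExp_DjHol :
    HasMerExp 1 (algebraMap Hol Mer DjHol) (thetaL ℂ (jqModC ℂ)) := by
  have h1 : IsCE ((1 : ℕ) : ℝ) ((DjHol : Hol) : ℍ → ℂ) := by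
    rw [Nat.cast_one]
    exact isCE_DjHol_one
  have h := HasMerExp.of_hol (N := 1) DjHol h1
  have e : cuspExp ((1 : ℕ) : ℝ) ((DjHol : Hol) : ℍ → ℂ) = thetaL ℂ (jqModC ℂ) := by
    rw [Nat.cast_one]
    exact cuspExp_DjHol_one
  rwa [e] at h

/-- **the `q`-expansion identity over `ℂ`**: `H_f(q) · θ j(q) = Σ a_n(f) qⁿ` -/
theorem coe_mul_thetaL_of_realizeC (f : CuspForm (Gamma0 N) 2) {h : FC N}
    (hh : realizeC N h * algebraMap Hol Mer DjHol = algebraMap Hol Mer (fHol f)) :
    (h : LaurentSeries ℂ) * thetaL ℂ (jqModC ℂ) =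
      HahnSeries.ofPowerSeries ℤ ℂ (qExpansion 1 f) := by
  have h1 := (hasMerExp_realizeC h).mul hasMerExp_DjHol
  rw [hh] at h1
  exact HasMerExp.unique h1 (hasMerExp_fHol f)

end Fermat.Agent.GF.D2.F1
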