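/-
GATE-F / GF-D2-F1 (helper45), file 5: **(F1) of GF-D2** = helper62's contract
`GF.D2.FormsToFunctions N ι`, for EVERY level `N` and EVERY embedding `ι : ℚ̄ →+* ℂ`.

A weight-two cusp form `f` on `Γ₀(N)` whose `q`-expansion coefficients are `ι (b n)`, `b n ∈ ℚ̄`, is
`H_f · θ(j)` for a function `H_f ∈ ℚ̄(X₀(N))` with `div H_f + div (dj) ≥ 0`:

* over `ℂ` : `H = f / D j ∈ ℂ(X₀(N))` (`exists_HfC`), `H(q) · θ j(q) = Σ a_n qⁿ`
  (`coe_mul_thetaL_of_realizeC`), and `ord_Q H + ord_Q (j - c) ≥ 1`, `ord_Q H + ord_Q j ≥ 1`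
  at the zeros of `j - c` / poles of `j` (`OrdC.lean`);
* descent : the coefficients of `H` are `ι` of the coefficients of `(Σ b_n qⁿ) / θ j(q) ∈ ℚ̄((q))`, so
  `H` comes from `ℚ̄(X₀(N))` (`Desc.mem_range_bcHom_of_coeff_mem`); every place of `ℚ̄(X₀(N))` has a
  place of `ℂ(X₀(N))` above it with `e = 1` (`PlaceOver.exists_place_over`);
* `ord_P (dj) = ord_P (j - c) - 1` resp. `ord_P j - 1` (`FF1.ordDifferential_of_pos/neg`).

Exports: `exists_FN_of_cuspForm` (with the sharp local bounds), `formsToFunctions`.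
-/
import Mathlib
import Fermat.Agent.GF.D2.F1.QExp
import Fermat.Agent.GF.D2.Contracts
import Fermat.Agent.GJ.Desc.Retract
import Fermat.Agent.GJ.Desc.PlaceOver
import Fermat.Agent.RR.ModularBar
import Fermat.Agent.S24.FF1

set_option autoImplicit false
set_option maxHeartbeats 400000
set_option linter.unusedSectionVars false
set_option linter.style.haveILetI false

noncomputable section

namespace Fermat.Agent.GF.D2.F1

open Complex ModularCurve ModularForm CongruenceSubgroup AlgebraicCurve KaehlerDifferential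
  ModularFormClass
open UpperHalfPlane hiding I
open Fermat.Agent.S24 Fermat.Agent.S28 Fermat.Agent.GL.Thick Fermat.Agent.S24_helper82
open Fermat.Agent.S24_helper62
open Fermat.Agent.GJ.Dict Fermat.Agent.GJ.Desc
open scoped Real Manifold MatrixGroups ModularForm

/-- `ℚ̄`. -/
local notation "Qb" => AlgebraicClosure ℚ

/-! ### Series bookkeeping -/

/-- helper62's `θ = single 1 1 * derivative` is the derivation `thetaL`. -/
theorem th_eq_thetaL {S : Type*} [CommRing S] (a : LaurentSeries S) :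
    Fermat.Agent.GF.D2.th a = thetaL S a := by
  ext n
  rw [Fermat.Agent.GF.D2.th, HahnSeries.coeff_single_mul, one_mul, LaurentSeries.derivative_apply,
    LaurentSeries.hasseDeriv_coeff, coeff_thetaL]
  have h1 : n - 1 + ((1 : ℕ) : ℤ) = n := by push_cast; ring
  rw [h1, Ring.choose_one_right, zsmul_eq_mul]

theorem coeffMap_qSeries {R S : Type*} [CommRing R] [CommRing S] (φ : R →+* S) (b : ℕ → R) :
    coeffMap φ (Fermat.Agent.GF.D2.qSeries b) =
      Fermat.Agent.GF.D2.qSeries (fun n => φ (b n)) := by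
  ext n
  rw [coeffMap_coeff, Fermat.Agent.GF.D2.qSeries, Fermat.Agent.GF.D2.qSeries]
  by_cases hn : 0 ≤ n
  · obtain ⟨m, rfl⟩ := Int.eq_ofNat_of_zero_le hn
    rw [HahnSeries.ofPowerSeries_apply_coeff, HahnSeries.ofPowerSeries_apply_coeff,
      PowerSeries.coeff_mk, PowerSeries.coeff_mk]
  · have h1 : ∀ p : PowerSeries R, (HahnSeries.ofPowerSeries ℤ R p).coeff n = 0 := by
      intro p
      rw [HahnSeries.ofPowerSeries_apply]
      apply HahnSeries.embDomain_notin_range
      rintro ⟨k, hk⟩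
      apply hn
      rw [← hk]
      exact Int.natCast_nonneg k
    have h2 : ∀ p : PowerSeries S, (HahnSeries.ofPowerSeries ℤ S p).coeff n = 0 := by
      intro p
      rw [HahnSeries.ofPowerSeries_apply]
      apply HahnSeries.embDomain_notin_range
      rintro ⟨k, hk⟩
      apply hn
      rw [← hk]
      exact Int.natCast_nonneg k
    rw [h1, h2, map_zero]

variable (N : ℕ) [NeZero N]

/-! ### The theorem -/

/-- **(F1), sharp local form.**  For a weight-two cusp form `f` on `Γ₀(N)` with `q`-expansion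
coefficients `ι (b n)`, `b n ∈ ℚ̄`, there is `H_f ∈ ℚ̄(X₀(N))` with `H_f(q) · θ j(q) = Σ b_n qⁿ`,
and if `H_f ≠ 0` then `ord_P H_f + ord_P j ≥ 1` at the poles of `j` and
`ord_P H_f + ord_P (j - c) ≥ 1` at the zeros of `j - c`. -/
theorem exists_FN_of_cuspForm (ι : Qb →+* ℂ) (f : CuspForm (Gamma0 N) 2) (b : ℕ → Qb)
    (hb : ∀ n, qCoeff f n = ι (b n)) :
    ∃ Hf : FN N,
      ((Hf : FN N) : LaurentSeries Qb) * thetaL Qb (coeffEmb Qb jq) =
        HahnSeries.ofPowerSeries ℤ Qb (PowerSeries.mk b) ∧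
      (Hf ≠ 0 → ∀ P : Place Qb (FN N),
        (P.ord (jF N) < 0 → 1 ≤ P.ord Hf + P.ord (jF N)) ∧
        ∀ c : Qb, 0 < P.ord (jF N - algebraMap Qb (FN N) c) →
          1 ≤ P.ord Hf + P.ord (jF N - algebraMap Qb (FN N) c)) := by
  letI : Algebra Qb ℂ := ι.toAlgebra
  haveI : IsScalarTower ℚ Qb ℂ :=
    IsScalarTower.of_algebraMap_eq fun x =>
      RingHom.congr_fun (Subsingleton.elim (algebraMap ℚ ℂ)
        ((algebraMap Qb ℂ).comp (algebraMap ℚ Qb))) x
  have hιalg : algebraMap Qb ℂ = ι := rfl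
  obtain ⟨hC, hhC⟩ := exists_HfC f
  have hq := coe_mul_thetaL_of_realizeC f hhC
  -- `θ j(q)` over `ℚ̄`
  set TJ : LaurentSeries Qb := thetaL Qb (coeffEmb Qb jq) with hTJ
  have hTJC : coeffMap ι TJ = thetaL ℂ (jqModC ℂ) := by
    rw [hTJ, ← thetaL_coeffMap, ← hιalg, coeffMap_coeffEmb' Qb ℂ jq,
      Fermat.Agent.S24_helper62.coeffEmb_jq]
  have hTJ0 : TJ ≠ 0 := by
    intro h
    apply thetaL_jqModC_ne_zero
    rw [← hTJC, h, map_zero]
  -- the candidate series over `ℚ̄`
  set G : LaurentSeries Qb := Fermat.Agent.GF.D2.qSeries b * TJ⁻¹ with hG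
  have hGT : G * TJ = Fermat.Agent.GF.D2.qSeries b := by
    rw [hG, mul_assoc, inv_mul_cancel₀ hTJ0, mul_one]
  have hbq : Fermat.Agent.GF.D2.qSeries (fun n => ι (b n)) =
      HahnSeries.ofPowerSeries ℤ ℂ (qExpansion 1 f) := by
    rw [Fermat.Agent.GF.D2.qSeries]
    congr 1
    ext n
    rw [PowerSeries.coeff_mk, ← hb n]
    rfl
  have hGC : coeffMap ι G * thetaL ℂ (jqModC ℂ) =
      HahnSeries.ofPowerSeries ℤ ℂ (qExpansion 1 f) := by
    rw [← hTJC, ← map_mul, hGT, coeffMap_qSeries, hbq]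
  have hcoe : (hC : LaurentSeries ℂ) = coeffMap ι G :=
    mul_right_cancel₀ thetaL_jqModC_ne_zero (hq.trans hGC.symm)
  -- descent to `ℚ̄(X₀(N))`
  obtain ⟨Hf, hHf⟩ := mem_range_bcHom_of_coeff_mem Qb ℂ (modularFunctionFieldFull N) hC
    (fun n => ⟨G.coeff n, by rw [hcoe, coeffMap_coeff]; rfl⟩)
  have hHfG : ((Hf : FN N) : LaurentSeries Qb) = G := by
    apply coeffMap_injective ι.injective
    rw [← hcoe, ← hHf]
    rfl
  refine ⟨Hf, ?_, ?_⟩
  · rw [hHfG]
    exact hGT
  · intro hHf0 P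
    haveI : IsGen Qb (jF N) := Fermat.Agent.RR.ModularBar.isGen_jF N
    obtain ⟨Q, hQ⟩ := PlaceOver.exists_place_over Qb ℂ (modularFunctionFieldFull N) (jF N) P
    have hC0 : hC ≠ 0 := by
      rw [← hHf]
      exact (map_ne_zero_iff _ (bcHom_injective Qb ℂ (modularFunctionFieldFull N))).2 hHf0
    have hbj : bcHom Qb ℂ (modularFunctionFieldFull N) (jF N) = jC N := by
      apply Subtype.ext
      rw [coe_bcHom, coe_jF, coeffMap_coeffEmb' Qb ℂ jq, Fermat.Agent.S24_helper62.coeffEmb_jq,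
        coe_jC]
    constructor
    · intro hP
      have h1 : Q.ord (jC N) < 0 := by
        rw [← hbj, hQ]
        exact hP
      have h2 := ord_add_ord_jC_ge f hhC hC0 Q h1
      rw [← hbj, ← hHf, hQ, hQ] at h2
      exact h2
    · intro c hc
      have hbc : bcHom Qb ℂ (modularFunctionFieldFull N) (jF N - algebraMap Qb (FN N) c) =
          jC N - algebraMap ℂ (FC N) (ι c) := by
        rw [map_sub, hbj, bcHom_algebraMap]
        rfl
      have h1 : 0 < Q.ord (jC N - algebraMap ℂ (FC N) (ι c)) := by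
        rw [← hbc, hQ]
        exact hc
      have h2 := ord_add_ord_jC_sub_ge f hhC hC0 Q (ι c) h1
      rw [← hbc, ← hHf, hQ, hQ] at h2
      exact h2

/-- **(F1) of GF-D2** (helper62's contract, VERBATIM): every weight-two cusp form of level `Γ₀(N)`
with `q`-expansion coefficients in `ι(ℚ̄)` is `H_f · θ(j)` with `H_f ∈ ℚ̄(X₀(N))` and
`div H_f + div (dj) ≥ 0`. -/
theorem formsToFunctions (ι : Qb →+* ℂ) : Fermat.Agent.GF.D2.FormsToFunctions N ι := by
  intro f b hb
  obtain ⟨Hf, h1, h2⟩ := exists_FN_of_cuspForm N ι f b hb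
  refine ⟨Hf, ?_, ?_⟩
  · rw [th_eq_thetaL, coe_jF]
    exact h1
  · by_cases h0 : Hf = 0
    · exact Or.inl h0
    · right
      intro P
      haveI : IsGen Qb (jF N) := Fermat.Agent.RR.ModularBar.isGen_jF N
      obtain ⟨hpole, hfin⟩ := h2 h0 P
      rcases PlaceB.pole_or_center P (jF N) with hP | ⟨c, hc⟩
      · have h3 := FF1.ordDifferential_of_neg (jF N) P hP
        have h4 := hpole hP
        rw [h3]
        omega
      · have h3 := FF1.ordDifferential_of_pos (jF N) P c hc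
        have h4 := hfin c hc
        rw [h3]
        omega

end Fermat.Agent.GF.D2.F1
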